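import Mathlib
import Fermat.Prelude.Def_ModularCurve_ModularUnit

/-!
# S16 — the arithmetic of the Eisenstein numerator (package U9a, helper87)

`n := ModularCurve.eisensteinNumerator p = (p - 1) / gcd (p - 1) 12`.

* `numerator_mul_kappa` : `n * κ = (p ^ 2 - 1) / 24` with `κ = (p + 1) * gcd (p - 1) 12 / 24`;
* `class_of_dvd_kappa` : a prime `l ∣ κ` is in class (a) `5 ≤ l ∧ l ∣ p + 1`,
  (b) `l = 3 ∧ 9 ∣ p + 1` or (c) `l = 2 ∧ 8 ∣ p + 1`;
* `dvd_numerator_of_classes` : `m ∣ (p ^ 2 - 1) / 24` and no prime of `m` in a class ⟹ `m ∣ n`;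
* `exists_prime_of_not_dvd` : `¬ m ∣ n` ⟹ there is a prime `l` with
  `24 * m / (p - 1) ∈ l ^ s ℤ_(l)`, `s = sExp p l = 1 + v_l (24 / gcd (p - 1) 12)`;
* `sExp_of_five_le`, `sExp_three`, `sExp_two` : the values of `s`.
-/

set_option autoImplicit false

namespace Fermat.Agent.S16.H87

open ModularCurve

/-- `κ(p) = (p + 1) * gcd (p - 1) 12 / 24`. -/
def kappa (p : ℕ) : ℕ := (p + 1) * Nat.gcd (p - 1) 12 / 24

/-- a prime `p ≥ 5` is `1, 5, 7, 11` modulo `12`. -/
theorem exists_eq_twelve_mul_add (p : ℕ) (hp : p.Prime) (h5 : 5 ≤ p) :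
    ∃ q : ℕ, p = 12 * q + 1 ∨ p = 12 * q + 5 ∨ p = 12 * q + 7 ∨ p = 12 * q + 11 := by
  have h2 : ¬ 2 ∣ p := fun h => by
    have := (Nat.prime_dvd_prime_iff_eq Nat.prime_two hp).mp h
    omega
  have h3 : ¬ 3 ∣ p := fun h => by
    have := (Nat.prime_dvd_prime_iff_eq Nat.prime_three hp).mp h
    omega
  refine ⟨p / 12, ?_⟩
  omega

/-- The four residue classes, with all the derived quantities computed. -/
theorem cases_data (p : ℕ) (hp : p.Prime) (h5 : 5 ≤ p) :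
    ∃ q : ℕ,
      (p = 12 * q + 1 ∧ Nat.gcd (p - 1) 12 = 12 ∧ eisensteinNumerator p = q ∧
        kappa p = 6 * q + 1) ∨
      (p = 12 * q + 5 ∧ Nat.gcd (p - 1) 12 = 4 ∧ eisensteinNumerator p = 3 * q + 1 ∧
        kappa p = 2 * q + 1) ∨
      (p = 12 * q + 7 ∧ Nat.gcd (p - 1) 12 = 6 ∧ eisensteinNumerator p = 2 * q + 1 ∧
        kappa p = 3 * q + 2) ∨
      (p = 12 * q + 11 ∧ Nat.gcd (p - 1) 12 = 2 ∧ eisensteinNumerator p = 6 * q + 5 ∧
        kappa p = q + 1) := by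
  obtain ⟨q, h | h | h | h⟩ := exists_eq_twelve_mul_add p hp h5
  · refine ⟨q, Or.inl ?_⟩
    have hg : Nat.gcd (p - 1) 12 = 12 := by
      have : p - 1 = 12 * q := by omega
      rw [this]; simp
    refine ⟨h, hg, ?_, ?_⟩
    · unfold eisensteinNumerator
      rw [hg]; omega
    · unfold kappa
      rw [hg]; omega
  · refine ⟨q, Or.inr (Or.inl ?_)⟩
    have hg : Nat.gcd (p - 1) 12 = 4 := by
      have : p - 1 = 12 * q + 4 := by omega
      rw [this]; simp
    refine ⟨h, hg, ?_, ?_⟩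
    · unfold eisensteinNumerator
      rw [hg]; omega
    · unfold kappa
      rw [hg]; omega
  · refine ⟨q, Or.inr (Or.inr (Or.inl ?_))⟩
    have hg : Nat.gcd (p - 1) 12 = 6 := by
      have : p - 1 = 12 * q + 6 := by omega
      rw [this]; simp
    refine ⟨h, hg, ?_, ?_⟩
    · unfold eisensteinNumerator
      rw [hg]; omega
    · unfold kappa
      rw [hg]; omega
  · refine ⟨q, Or.inr (Or.inr (Or.inr ?_))⟩
    have hg : Nat.gcd (p - 1) 12 = 2 := by
      have : p - 1 = 12 * q + 10 := by omega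
      rw [this]; simp
    refine ⟨h, hg, ?_, ?_⟩
    · unfold eisensteinNumerator
      rw [hg]; omega
    · unfold kappa
      rw [hg]; omega

/-- `n * κ = (p² - 1) / 24`. -/
theorem numerator_mul_kappa (p : ℕ) (hp : p.Prime) (h5 : 5 ≤ p) :
    eisensteinNumerator p * kappa p = (p ^ 2 - 1) / 24 := by
  obtain ⟨q, ⟨h, -, hn, hk⟩ | ⟨h, -, hn, hk⟩ | ⟨h, -, hn, hk⟩ | ⟨h, -, hn, hk⟩⟩ :=
    cases_data p hp h5
  · rw [hn, hk]
    have : p ^ 2 - 1 = 24 * (q * (6 * q + 1)) := by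
      subst h
      have : (12 * q + 1) ^ 2 = 24 * (q * (6 * q + 1)) + 1 := by ring
      omega
    rw [this, Nat.mul_div_cancel_left _ (by norm_num)]
  · rw [hn, hk]
    have : p ^ 2 - 1 = 24 * ((3 * q + 1) * (2 * q + 1)) := by
      subst h
      have : (12 * q + 5) ^ 2 = 24 * ((3 * q + 1) * (2 * q + 1)) + 1 := by ring
      omega
    rw [this, Nat.mul_div_cancel_left _ (by norm_num)]
  · rw [hn, hk]
    have : p ^ 2 - 1 = 24 * ((2 * q + 1) * (3 * q + 2)) := by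
      subst h
      have : (12 * q + 7) ^ 2 = 24 * ((2 * q + 1) * (3 * q + 2)) + 1 := by ring
      omega
    rw [this, Nat.mul_div_cancel_left _ (by norm_num)]
  · rw [hn, hk]
    have : p ^ 2 - 1 = 24 * ((6 * q + 5) * (q + 1)) := by
      subst h
      have : (12 * q + 11) ^ 2 = 24 * ((6 * q + 5) * (q + 1)) + 1 := by ring
      omega
    rw [this, Nat.mul_div_cancel_left _ (by norm_num)]

/-- a prime different from `2` and `3` is at least `5`. -/
theorem five_le_of_prime {l : ℕ} (hl : l.Prime) (h2 : l ≠ 2) (h3 : l ≠ 3) : 5 ≤ l := by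
  have h1 := hl.two_le
  by_contra hlt
  have h4 : l = 4 := by omega
  subst h4
  exact absurd hl (by norm_num)

/-- A prime divisor of `κ` is in one of the three classes (a), (b), (c). -/
theorem class_of_dvd_kappa (p : ℕ) (hp : p.Prime) (h5 : 5 ≤ p) (l : ℕ) (hl : l.Prime)
    (h : l ∣ kappa p) :
    (5 ≤ l ∧ l ∣ p + 1) ∨ (l = 3 ∧ 9 ∣ p + 1) ∨ (l = 2 ∧ 8 ∣ p + 1) := by
  obtain ⟨q, ⟨hq, -, -, hk⟩ | ⟨hq, -, -, hk⟩ | ⟨hq, -, -, hk⟩ | ⟨hq, -, -, hk⟩⟩ :=
    cases_data p hp h5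
  · -- κ = 6q+1, p + 1 = 2 κ
    rw [hk] at h
    have hp1 : p + 1 = 2 * (6 * q + 1) := by omega
    have h2 : l ≠ 2 := by rintro rfl; omega
    have h3 : l ≠ 3 := by rintro rfl; omega
    exact Or.inl ⟨five_le_of_prime hl h2 h3, hp1 ▸ Dvd.dvd.mul_left h 2⟩
  · -- κ = 2q+1, p + 1 = 6 κ
    rw [hk] at h
    have hp1 : p + 1 = 6 * (2 * q + 1) := by omega
    have h2 : l ≠ 2 := by rintro rfl; omega
    by_cases h3 : l = 3
    · subst h3
      refine Or.inr (Or.inl ⟨rfl, ?_⟩)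
      omega
    · exact Or.inl ⟨five_le_of_prime hl h2 h3, hp1 ▸ Dvd.dvd.mul_left h 6⟩
  · -- κ = 3q+2, p + 1 = 4 κ
    rw [hk] at h
    have hp1 : p + 1 = 4 * (3 * q + 2) := by omega
    have h3 : l ≠ 3 := by rintro rfl; omega
    by_cases h2 : l = 2
    · subst h2
      refine Or.inr (Or.inr ⟨rfl, ?_⟩)
      omega
    · exact Or.inl ⟨five_le_of_prime hl h2 h3, hp1 ▸ Dvd.dvd.mul_left h 4⟩
  · -- κ = q+1, p + 1 = 12 κ
    rw [hk] at h
    have hp1 : p + 1 = 12 * (q + 1) := by omega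
    by_cases h2 : l = 2
    · subst h2
      refine Or.inr (Or.inr ⟨rfl, ?_⟩)
      omega
    by_cases h3 : l = 3
    · subst h3
      refine Or.inr (Or.inl ⟨rfl, ?_⟩)
      omega
    · exact Or.inl ⟨five_le_of_prime hl h2 h3, hp1 ▸ Dvd.dvd.mul_left h 12⟩

/-- **Shape (B)**: if `m ∣ (p² - 1) / 24` and no prime divisor of `m` is in class (a), (b), (c),
then `m` divides the Eisenstein numerator. -/
theorem dvd_numerator_of_classes (p : ℕ) (hp : p.Prime) (h5 : 5 ≤ p) (m : ℕ)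
    (hm : m ∣ (p ^ 2 - 1) / 24)
    (hcl : ∀ l : ℕ, l.Prime → l ∣ m →
      ¬ ((5 ≤ l ∧ l ∣ p + 1) ∨ (l = 3 ∧ 9 ∣ p + 1) ∨ (l = 2 ∧ 8 ∣ p + 1))) :
    m ∣ eisensteinNumerator p := by
  rw [← numerator_mul_kappa p hp h5] at hm
  have hcop : Nat.Coprime m (kappa p) :=
    Nat.coprime_of_dvd fun l hl hlm hlk => hcl l hl hlm (class_of_dvd_kappa p hp h5 l hl hlk)
  exact hcop.dvd_of_dvd_mul_right hm

/-- **Shape (B)** for an integer `m`. -/
theorem int_dvd_numerator_of_classes (p : ℕ) (hp : p.Prime) (h5 : 5 ≤ p) (m : ℤ)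
    (hm : m ∣ (((p ^ 2 - 1) / 24 : ℕ) : ℤ))
    (hcl : ∀ l : ℕ, l.Prime → (l : ℤ) ∣ m →
      ¬ ((5 ≤ l ∧ l ∣ p + 1) ∨ (l = 3 ∧ 9 ∣ p + 1) ∨ (l = 2 ∧ 8 ∣ p + 1))) :
    m ∣ (eisensteinNumerator p : ℤ) := by
  rw [← Int.natAbs_dvd_natAbs, Int.natAbs_natCast]
  refine dvd_numerator_of_classes p hp h5 m.natAbs ?_ fun l hl hlm => hcl l hl ?_
  · have := Int.natAbs_dvd_natAbs.mpr hm
    rwa [Int.natAbs_natCast] at this
  · exact Int.natCast_dvd.mpr hlm

/-- the exponent `s = 1 + v_l (24 / gcd (p - 1) 12)`. -/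
noncomputable def sExp (p l : ℕ) : ℕ := 1 + (24 / Nat.gcd (p - 1) 12).factorization l

theorem factorization_eq_of_dvd_of_not_dvd {l n e : ℕ} (hl : l.Prime) (hn : n ≠ 0)
    (h1 : l ^ e ∣ n) (h2 : ¬ l ^ (e + 1) ∣ n) : n.factorization l = e := by
  have a := (hl.pow_dvd_iff_le_factorization hn).mp h1
  have b := mt (hl.pow_dvd_iff_le_factorization hn).mpr h2
  omega

/-- **Shape (A)**: if `m` does not divide the Eisenstein numerator `n`, then for some prime `l`
the rational number `24 * m / (p - 1)` lies in `l ^ s • ℤ_(l)`, `s = sExp p l`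
(`m = 0` is allowed). -/
theorem exists_prime_of_not_dvd (p : ℕ) (hp : 2 ≤ p) (m : ℕ)
    (h : ¬ m ∣ eisensteinNumerator p) :
    ∃ l : ℕ, l.Prime ∧ ∃ c d : ℕ, ¬ l ∣ d ∧ 24 * m * d = (p - 1) * l ^ sExp p l * c := by
  rcases Nat.eq_zero_or_pos m with rfl | hm
  · exact ⟨2, Nat.prime_two, 0, 1, by norm_num, by simp⟩
  set g := Nat.gcd (p - 1) 12 with hg
  set n := eisensteinNumerator p with hn
  have hgdvd : g ∣ p - 1 := Nat.gcd_dvd_left _ _
  have hg12 : g ∣ 12 := Nat.gcd_dvd_right _ _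
  have hgpos : 0 < g := Nat.gcd_pos_of_pos_right _ (by norm_num)
  have hng : n * g = p - 1 := by
    rw [hn]; unfold eisensteinNumerator
    exact Nat.div_mul_cancel hgdvd
  have hnpos : n ≠ 0 := by
    rintro h0
    rw [h0, zero_mul] at hng
    omega
  have ht : g * (24 / g) = 24 := Nat.mul_div_cancel' (hg12.trans (by norm_num))
  have htpos : 24 / g ≠ 0 := by
    intro h0
    rw [h0, mul_zero] at ht
    omega
  -- a prime at which `m` has larger valuation than `n`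
  obtain ⟨l, hlt⟩ : ∃ l, n.factorization l < m.factorization l := by
    by_contra hcon
    exact h ((Nat.factorization_le_iff_dvd hm.ne' hnpos).mp fun l =>
      not_lt.mp fun hl' => hcon ⟨l, hl'⟩)
  have hl : l.Prime := by
    by_contra hnp
    rw [Nat.factorization_eq_zero_of_not_prime m hnp] at hlt
    omega
  refine ⟨l, hl, ?_⟩
  set b := n.factorization l with hb
  set τ := (24 / g).factorization l with hτ
  obtain ⟨m'', hm''⟩ : l ^ (b + 1) ∣ m :=
    (hl.pow_dvd_iff_le_factorization hm.ne').mpr hlt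
  have hn' : l ^ b * (n / l ^ b) = n := Nat.ordProj_mul_ordCompl_eq_self n l
  have ht' : l ^ τ * ((24 / g) / l ^ τ) = 24 / g := Nat.ordProj_mul_ordCompl_eq_self (24 / g) l
  refine ⟨(24 / g) / l ^ τ * m'', n / l ^ b, Nat.not_dvd_ordCompl hl hnpos, ?_⟩
  have hs : sExp p l = 1 + τ := rfl
  rw [hs, ← hng]
  set n' := n / l ^ b with hn'def
  set t' := (24 / g) / l ^ τ with ht'def
  calc 24 * m * n' = g * (24 / g) * m * n' := by rw [ht]
    _ = g * (l ^ τ * t') * (l ^ (b + 1) * m'') * n' := by rw [ht', ← hm'']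
    _ = (l ^ b * n') * g * l ^ (1 + τ) * (t' * m'') := by ring
    _ = n * g * l ^ (1 + τ) * (t' * m'') := by rw [hn']

/-- for `l ≥ 5` the exponent is `1`. -/
theorem sExp_of_five_le (p l : ℕ) (hl : l.Prime) (h5 : 5 ≤ l) : sExp p l = 1 := by
  unfold sExp
  have hg12 : Nat.gcd (p - 1) 12 ∣ 12 := Nat.gcd_dvd_right _ _
  have hdvd : 24 / Nat.gcd (p - 1) 12 ∣ 24 := Nat.div_dvd_of_dvd (hg12.trans (by norm_num))
  have hnd : ¬ l ∣ 24 / Nat.gcd (p - 1) 12 := by
    intro hld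
    have h24 : l ∣ 2 ^ 3 * 3 := by simpa using hld.trans hdvd
    rcases (Nat.Prime.dvd_mul hl).mp h24 with h2 | h3
    · have := (Nat.prime_dvd_prime_iff_eq hl Nat.prime_two).mp (hl.dvd_of_dvd_pow h2)
      omega
    · have := (Nat.prime_dvd_prime_iff_eq hl Nat.prime_three).mp h3
      omega
  rw [Nat.factorization_eq_zero_of_not_dvd hnd]

/-- the exponent at `l = 3`. -/
theorem sExp_three (p : ℕ) (hp : p.Prime) (h5 : 5 ≤ p) :
    sExp p 3 = if p % 3 = 1 then 1 else 2 := by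
  unfold sExp
  obtain ⟨q, ⟨hq, hg, -, -⟩ | ⟨hq, hg, -, -⟩ | ⟨hq, hg, -, -⟩ | ⟨hq, hg, -, -⟩⟩ :=
    cases_data p hp h5
  · rw [hg, if_pos (by omega),
      factorization_eq_of_dvd_of_not_dvd (e := 0) Nat.prime_three (by norm_num) (by norm_num)
        (by norm_num)]
  · rw [hg, if_neg (by omega),
      factorization_eq_of_dvd_of_not_dvd (e := 1) Nat.prime_three (by norm_num) (by norm_num)
        (by norm_num)]
  · rw [hg, if_pos (by omega),
      factorization_eq_of_dvd_of_not_dvd (e := 0) Nat.prime_three (by norm_num) (by norm_num)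
        (by norm_num)]
  · rw [hg, if_neg (by omega),
      factorization_eq_of_dvd_of_not_dvd (e := 1) Nat.prime_three (by norm_num) (by norm_num)
        (by norm_num)]

/-- the exponent at `l = 2`. -/
theorem sExp_two (p : ℕ) (hp : p.Prime) (h5 : 5 ≤ p) :
    sExp p 2 = if p % 4 = 1 then 2 else 3 := by
  unfold sExp
  obtain ⟨q, ⟨hq, hg, -, -⟩ | ⟨hq, hg, -, -⟩ | ⟨hq, hg, -, -⟩ | ⟨hq, hg, -, -⟩⟩ :=
    cases_data p hp h5
  · rw [hg, if_pos (by omega),
      factorization_eq_of_dvd_of_not_dvd (e := 1) Nat.prime_two (by norm_num) (by norm_num)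
        (by norm_num)]
  · rw [hg, if_pos (by omega),
      factorization_eq_of_dvd_of_not_dvd (e := 1) Nat.prime_two (by norm_num) (by norm_num)
        (by norm_num)]
  · rw [hg, if_neg (by omega),
      factorization_eq_of_dvd_of_not_dvd (e := 2) Nat.prime_two (by norm_num) (by norm_num)
        (by norm_num)]
  · rw [hg, if_neg (by omega),
      factorization_eq_of_dvd_of_not_dvd (e := 2) Nat.prime_two (by norm_num) (by norm_num)
        (by norm_num)]

end Fermat.Agent.S16.H87
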